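import Fermat.Agent.S22alt.Period
import Fermat.Prelude.Def_CuspForm_HeckeAlgebra
import Fermat.Prelude.Thm_CongruenceSubgroup_one_mem_strictPeriods_Gamma0

set_option autoImplicit false

open UpperHalfPlane hiding I
open Complex Filter Topology Function Polynomial Matrix.SpecialLinearGroup
open scoped Manifold MatrixGroups ModularForm Real

namespace Fermat.Agent.S22alt

noncomputable section

/-- The function on `ℍ` attached to a polynomial. -/
def polyFun (p : ℂ[X]) : ℍ → ℂ := fun τ => p.eval (τ : ℂ)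

theorem polyFun_injective : Injective polyFun := fun _ _ h =>
  poly_eq_of_eval_eq fun τ => congrFun h τ

theorem polyFun_add (p q : ℂ[X]) : polyFun (p + q) = polyFun p + polyFun q := by
  funext τ; simp [polyFun]

theorem polyFun_sum {ι : Type*} (s : Finset ι) (p : ι → ℂ[X]) :
    polyFun (∑ i ∈ s, p i) = ∑ i ∈ s, polyFun (p i) := by
  funext τ; simp [polyFun, eval_finsetSum]

theorem polyFun_C_mul (c : ℂ) (p : ℂ[X]) : polyFun (C c * p) = c • polyFun p := by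
  funext τ; simp [polyFun]

theorem smul_slash_of_det_pos (F : ℍ → ℂ) (k : ℤ) (c : ℂ) {g : GL (Fin 2) ℝ} (hg : 0 < g.val.det) :
    (c • F) ∣[k] g = c • (F ∣[k] g) := by
  rw [ModularForm.smul_slash, σ_eq_of_det_pos hg]

theorem sub_slash (F G : ℍ → ℂ) (k : ℤ) (g : GL (Fin 2) ℝ) :
    (F - G) ∣[k] g = F ∣[k] g - G ∣[k] g := by
  rw [sub_eq_add_neg, SlashAction.add_slash, SlashAction.neg_slash, ← sub_eq_add_neg]

/-- Slash action of weight `-w` on polynomial functions of degree `≤ w`. -/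
theorem polyFun_slash (w : ℕ) {p : ℂ[X]} (hp : p.natDegree ≤ w) {g : GL (Fin 2) ℝ}
    (hg : 0 < g.val.det) :
    ((g.val.det : ℂ) ^ (w + 1)) • ((polyFun p) ∣[(-(w : ℤ))] g) =
      polyFun (act w (g 0 0 : ℂ) (g 0 1 : ℂ) (g 1 0 : ℂ) (g 1 1 : ℂ) p) := by
  funext τ
  have hdet : g.det.val = g.val.det := Matrix.GeneralLinearGroup.val_det_apply g
  have hg' : 0 < g.det.val := hdet ▸ hg
  simp only [Pi.smul_apply, smul_eq_mul]
  rw [det_pow_mul_slash_neg _ w hg, polyFun, polyFun,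
    eval_act w _ _ _ _ p hp (τ : ℂ) (denom_ne_zero g τ), coe_smul_of_det_pos hg']
  rfl

variable {N : ℕ} [NeZero N] {w : ℕ}

local notation "Γ" => CongruenceSubgroup.Gamma0 N
local notation "𝒮" => CuspForm (CongruenceSubgroup.Gamma0 N) ((w : ℤ) + 2)

theorem adm_cuspForm (f : 𝒮) : Adm 1 (f : ℍ → ℂ) where
  per := by
    have := SlashInvariantFormClass.periodic_comp_ofComplex f
      (CongruenceSubgroup.one_mem_strictPeriods_Gamma0 N)
    simpa using this
  hol := CuspFormClass.holo f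
  zero := CuspFormClass.zero_at_infty f

/-- The Eichler integral of a cusp form of weight `w + 2`. -/
def eich (f : 𝒮) : ℍ → ℂ := prim^[w + 1] (f : ℍ → ℂ)

theorem eich_add (f g : 𝒮) : eich (f + g) = eich f + eich g := by
  rw [eich, FunLike.coe_add, iterate_prim_add one_pos (adm_cuspForm f) (adm_cuspForm g)]
  rfl

theorem eich_smul (c : ℂ) (f : 𝒮) : eich (c • f) = c • eich f := by
  rw [eich, FunLike.coe_smul, iterate_prim_smul one_pos c (adm_cuspForm f)]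
  rfl

theorem det_mapGL (γ : SL(2, ℤ)) : (mapGL ℝ γ : GL (Fin 2) ℝ).val.det = 1 := by
  rw [← Matrix.GeneralLinearGroup.val_det_apply]; simp

theorem det_mapGL_pos (γ : SL(2, ℤ)) : 0 < (mapGL ℝ γ : GL (Fin 2) ℝ).val.det := by
  rw [det_mapGL]; exact one_pos

theorem exists_per {γ : SL(2, ℤ)} (hγ : γ ∈ Γ) (f : 𝒮) :
    ∃ p : ℂ[X], p.natDegree ≤ w ∧ (eich f) ∣[(-(w : ℤ))] (mapGL ℝ γ) - eich f = polyFun p := by
  have hinv : (f : ℍ → ℂ) = (f : ℍ → ℂ) ∣[((w : ℤ) + 2)] (mapGL ℝ γ) :=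
    (SlashInvariantFormClass.slash_action_eq f _ (Subgroup.mem_map_of_mem (mapGL ℝ) hγ)).symm
  obtain ⟨p, hp, hpe⟩ := exists_period_poly one_pos one_pos (adm_cuspForm f) (adm_cuspForm f) w
    (det_mapGL_pos γ) hinv
  refine ⟨p, hp, funext fun τ => ?_⟩
  have := hpe τ
  rw [det_mapGL, ofReal_one, one_pow, one_mul] at this
  exact this

/-- The period polynomial. -/
def per (γ : SL(2, ℤ)) (f : 𝒮) : ℂ[X] :=
  open Classical in
  if H : ∃ p : ℂ[X], p.natDegree ≤ w ∧ (eich f) ∣[(-(w : ℤ))] (mapGL ℝ γ) - eich f = polyFun p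
  then H.choose else 0

theorem per_spec {γ : SL(2, ℤ)} (hγ : γ ∈ Γ) (f : 𝒮) :
    (eich f) ∣[(-(w : ℤ))] (mapGL ℝ γ) - eich f = polyFun (per γ f) := by
  rw [per, dif_pos (exists_per hγ f)]
  exact (exists_per hγ f).choose_spec.2

omit [NeZero N] in
theorem natDegree_per_le (γ : SL(2, ℤ)) (f : 𝒮) : (per γ f).natDegree ≤ w := by
  rw [per]
  split_ifs with H
  · exact H.choose_spec.1
  · simp

theorem per_eq {γ : SL(2, ℤ)} (hγ : γ ∈ Γ) (f : 𝒮) {p : ℂ[X]}
    (hp : (eich f) ∣[(-(w : ℤ))] (mapGL ℝ γ) - eich f = polyFun p) : per γ f = p :=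
  polyFun_injective ((per_spec hγ f).symm.trans hp)

theorem per_add {γ : SL(2, ℤ)} (hγ : γ ∈ Γ) (f g : 𝒮) : per γ (f + g) = per γ f + per γ g := by
  refine per_eq hγ _ ?_
  rw [polyFun_add, ← per_spec hγ f, ← per_spec hγ g, eich_add, SlashAction.add_slash]
  abel

theorem per_smul {γ : SL(2, ℤ)} (hγ : γ ∈ Γ) (c : ℂ) (f : 𝒮) : per γ (c • f) = C c * per γ f := by
  refine per_eq hγ _ ?_
  rw [polyFun_C_mul, ← per_spec hγ f, eich_smul, smul_slash_of_det_pos _ _ _ (det_mapGL_pos γ),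
    smul_sub]

/-- The coefficient functionals of the period polynomials. -/
def perCoeff (γ : SL(2, ℤ)) (hγ : γ ∈ Γ) (j : ℕ) : Module.Dual ℂ 𝒮 where
  toFun f := (per γ f).coeff j
  map_add' f g := by rw [per_add hγ, coeff_add]
  map_smul' c f := by rw [per_smul hγ, coeff_C_mul]; rfl

theorem perCoeff_apply (γ : SL(2, ℤ)) (hγ : γ ∈ Γ) (j : ℕ) (f : 𝒮) :
    perCoeff γ hγ j f = (per γ f).coeff j := rfl


theorem mapGL_apply' (g : SL(2, ℤ)) (i j : Fin 2) :
    (((mapGL ℝ g : GL (Fin 2) ℝ) i j : ℝ) : ℂ) = ((g i j : ℤ) : ℂ) := by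
  simp

theorem polyFun_slash_SL (p : ℂ[X]) (hp : p.natDegree ≤ w) (δ : SL(2, ℤ)) :
    (polyFun p) ∣[(-(w : ℤ))] (mapGL ℝ δ) =
      polyFun (act w ((δ 0 0 : ℤ) : ℂ) ((δ 0 1 : ℤ) : ℂ) ((δ 1 0 : ℤ) : ℂ) ((δ 1 1 : ℤ) : ℂ) p) := by
  have := polyFun_slash w hp (det_mapGL_pos δ)
  rw [det_mapGL, ofReal_one, one_pow, one_smul] at this
  rw [this]
  simp only [mapGL_apply']

theorem per_mul {γ δ : SL(2, ℤ)} (hγ : γ ∈ Γ) (hδ : δ ∈ Γ) (f : 𝒮) :
    per (γ * δ) f =
      act w ((δ 0 0 : ℤ) : ℂ) ((δ 0 1 : ℤ) : ℂ) ((δ 1 0 : ℤ) : ℂ) ((δ 1 1 : ℤ) : ℂ) (per γ f)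
        + per δ f := by
  refine per_eq (mul_mem hγ hδ) _ ?_
  rw [polyFun_add, ← polyFun_slash_SL _ (natDegree_per_le γ f), ← per_spec hγ f, ← per_spec hδ f,
    map_mul, SlashAction.slash_mul, sub_slash]
  abel

theorem per_one (f : 𝒮) : per (1 : SL(2, ℤ)) f = 0 := by
  refine per_eq (one_mem _) _ ?_
  rw [map_one, SlashAction.slash_one, sub_self]
  funext τ; simp [polyFun]

theorem per_inv {γ : SL(2, ℤ)} (hγ : γ ∈ Γ) (f : 𝒮) :
    per γ⁻¹ f = - act w ((γ⁻¹ 0 0 : ℤ) : ℂ) ((γ⁻¹ 0 1 : ℤ) : ℂ) ((γ⁻¹ 1 0 : ℤ) : ℂ)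
      ((γ⁻¹ 1 1 : ℤ) : ℂ) (per γ f) := by
  have h := per_mul hγ (inv_mem hγ) f
  rw [mul_inv_cancel, per_one] at h
  exact eq_neg_of_add_eq_zero_right h.symm

/-- The period lattice: the `ℤ`-span of all coefficient functionals of period polynomials. -/
def periodLattice' : Submodule ℤ (Module.Dual ℂ 𝒮) :=
  Submodule.span ℤ {φ | ∃ (γ : SL(2, ℤ)) (hγ : γ ∈ Γ) (j : ℕ), φ = perCoeff γ hγ j}

variable (N w) in
/-- The period lattice, with explicit arguments. -/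
abbrev periodLattice : Submodule ℤ (Module.Dual ℂ 𝒮) := periodLattice'

theorem perCoeff_mem (γ : SL(2, ℤ)) (hγ : γ ∈ Γ) (j : ℕ) :
    perCoeff γ hγ j ∈ periodLattice N w :=
  Submodule.subset_span ⟨γ, hγ, j, rfl⟩

omit [NeZero N] in
/-- If the coefficient functionals of `P` lie in a `ℤ`-submodule, then so do those of
`act ... ∘ P`, for integer matrices. -/
theorem act_coeff_mem (L : Submodule ℤ (Module.Dual ℂ 𝒮)) (a b c d : ℤ) (P : 𝒮 → ℂ[X])
    (φ : ℕ → Module.Dual ℂ 𝒮) (hφ : ∀ j f, φ j f = (P f).coeff j) (hL : ∀ j, φ j ∈ L)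
    (ψ : Module.Dual ℂ 𝒮) (i : ℕ)
    (hψ : ∀ f, ψ f = (act w (a : ℂ) (b : ℂ) (c : ℂ) (d : ℂ) (P f)).coeff i) : ψ ∈ L := by
  have : ψ = ∑ j ∈ Finset.range (w + 1), (actCoeff w a b c d i j) • φ j := by
    refine LinearMap.ext fun f => ?_
    rw [hψ, coeff_act_intCast, LinearMap.sum_apply]
    refine Finset.sum_congr rfl fun j _ => ?_
    rw [LinearMap.smul_apply, hφ, zsmul_eq_mul]
  rw [this]
  exact Submodule.sum_mem _ fun j _ => Submodule.smul_mem _ _ (hL j)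

variable (N) in
theorem Gamma0_fg : (CongruenceSubgroup.Gamma0 N).FG := by
  have : Group.FG SL(2, ℤ) := by
    rw [Group.fg_iff]
    exact ⟨{ModularGroup.S, ModularGroup.T}, SpecialLinearGroup.SL2Z_generators, by simp⟩
  rw [← Group.fg_iff_subgroup_fg]
  exact Subgroup.fg_of_index_ne_zero _

theorem periodLattice_fg : (periodLattice N w).FG := by
  obtain ⟨S, hS⟩ := Gamma0_fg N
  have hSΓ : ∀ s : S, (s : SL(2, ℤ)) ∈ Γ := fun s => hS ▸ Subgroup.subset_closure s.2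
  set L₀ : Submodule ℤ (Module.Dual ℂ 𝒮) :=
    Submodule.span ℤ (Set.range fun x : S × Fin (w + 1) => perCoeff (x.1 : SL(2, ℤ)) (hSΓ x.1) x.2)
    with hL₀
  have hfg : L₀.FG := Submodule.fg_span (Set.finite_range _)
  have hzero : ∀ (γ : SL(2, ℤ)) (hγ : γ ∈ Γ) (j : ℕ), w < j →
      perCoeff γ hγ j = (0 : Module.Dual ℂ 𝒮) := by
    intro γ hγ j hj
    refine LinearMap.ext fun f => ?_
    rw [perCoeff_apply, LinearMap.zero_apply]
    exact coeff_eq_zero_of_natDegree_lt ((natDegree_per_le γ f).trans_lt hj)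
  have key : ∀ γ (hγ : γ ∈ Subgroup.closure (S : Set SL(2, ℤ))),
      ∀ j, perCoeff γ (hS ▸ hγ) j ∈ L₀ := by
    intro γ hγ
    induction hγ using Subgroup.closure_induction with
    | mem x hx =>
      intro j
      by_cases hj : j < w + 1
      · exact Submodule.subset_span ⟨(⟨x, hx⟩, ⟨j, hj⟩), rfl⟩
      · rw [hzero _ _ j (by omega)]; exact zero_mem _
    | one =>
      intro j
      have : perCoeff (1 : SL(2, ℤ)) (one_mem _) j = (0 : Module.Dual ℂ 𝒮) :=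
        LinearMap.ext fun f => by rw [perCoeff_apply, per_one]; simp
      rw [this]; exact zero_mem _
    | mul x y hx hy ihx ihy =>
      intro i
      have hx' : x ∈ Γ := hS ▸ hx
      have hy' : y ∈ Γ := hS ▸ hy
      have h1 : (perCoeff (x * y) (mul_mem hx' hy') i - perCoeff y hy' i) ∈ L₀ :=
        act_coeff_mem L₀ (y 0 0) (y 0 1) (y 1 0) (y 1 1) (per x) (perCoeff x hx')
          (fun _ _ => rfl) ihx _ i (fun f => by
            rw [LinearMap.sub_apply, perCoeff_apply, perCoeff_apply, per_mul hx' hy', coeff_add,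
              add_sub_cancel_right])
      have := add_mem h1 (ihy i)
      rwa [sub_add_cancel] at this
    | inv x hx ihx =>
      intro i
      have hx' : x ∈ Γ := hS ▸ hx
      have h1 : (- perCoeff x⁻¹ (inv_mem hx') i) ∈ L₀ :=
        act_coeff_mem L₀ (x⁻¹ 0 0) (x⁻¹ 0 1) (x⁻¹ 1 0) (x⁻¹ 1 1) (per x) (perCoeff x hx')
          (fun _ _ => rfl) ihx _ i (fun f => by
            rw [LinearMap.neg_apply, perCoeff_apply, per_inv hx', coeff_neg, neg_neg])
      have := neg_mem h1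
      rwa [neg_neg] at this
  have hle : periodLattice N w ≤ L₀ := by
    refine Submodule.span_le.mpr ?_
    rintro _ ⟨γ, hγ, j, rfl⟩
    exact key γ (hS.symm ▸ hγ) j
  have hge : L₀ ≤ periodLattice N w := by
    refine Submodule.span_le.mpr ?_
    rintro _ ⟨x, rfl⟩
    exact perCoeff_mem _ _ _
  rw [le_antisymm hle hge]
  exact hfg

end

end Fermat.Agent.S22alt
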