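import Fermat.Agent.S22alt.Cocycle
import Fermat.Prelude.Thm_Subgroup_IsArithmetic_exists_nat_mem_strictPeriods_conj
import Fermat.Prelude.Thm_ModularForm_sturm_bound_Gamma0

set_option autoImplicit false

open UpperHalfPlane hiding I
open Complex Filter Topology Function Polynomial Matrix.SpecialLinearGroup
open scoped Manifold MatrixGroups ModularForm Real Pointwise

namespace Fermat.Agent.S22alt

noncomputable section

/-- A polynomial function which is periodic on `ℍ` is constant. -/
theorem poly_const_of_periodic {p : ℂ[X]} {M : ℝ} (hM : M ≠ 0)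
    (h : Periodic ((polyFun p) ∘ ofComplex) M) : p = C (p.eval I) := by
  refine Polynomial.eq_of_infinite_eval_eq p _ ?_
  have hinf : (Set.range fun n : ℕ => (I + (n : ℂ) * (M : ℂ))).Infinite := by
    refine Set.infinite_range_of_injective fun m n hmn => ?_
    have hM' : (M : ℂ) ≠ 0 := by exact_mod_cast hM
    simpa [hM'] using hmn
  refine hinf.mono ?_
  rintro _ ⟨n, rfl⟩
  have h1 := h.nat_mul n I
  have him : 0 < (I + (n : ℂ) * (M : ℂ)).im := by simp
  have him' : 0 < (I : ℂ).im := by simp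
  simp only [comp_apply, ofComplex_apply_of_im_pos him, ofComplex_apply_of_im_pos him',
    polyFun] at h1
  simpa using h1

variable {N : ℕ} [NeZero N] {w : ℕ}

local notation "Γ" => CongruenceSubgroup.Gamma0 N
local notation "𝒢" => (CongruenceSubgroup.Gamma0 N : Subgroup (GL (Fin 2) ℝ))
local notation "𝒮" => CuspForm (CongruenceSubgroup.Gamma0 N) ((w : ℤ) + 2)

/-- The Eichler integral as a slash invariant form, when all periods vanish. -/
def eichSIF (f : 𝒮) (hinv : ∀ g ∈ 𝒢, (eich f) ∣[(-(w : ℤ))] g = eich f) :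
    SlashInvariantForm 𝒢 (-(w : ℤ)) where
  toFun := eich f
  slash_action_eq' := hinv

theorem adm_eich (f : 𝒮) : Adm 1 (eich f) := (adm_cuspForm f).iterate_prim one_pos _

theorem eich_bdd (f : 𝒮) (hinv : ∀ g ∈ 𝒢, (eich f) ∣[(-(w : ℤ))] g = eich f) (β : SL(2, ℤ)) :
    IsBoundedAtImInfty ((eich f) ∣[(-(w : ℤ))] (mapGL ℝ β)) := by
  obtain ⟨M, hM, hper⟩ := Subgroup.IsArithmetic.exists_nat_mem_strictPeriods_conj 𝒢
  have hM' : (0 : ℝ) < M := by exact_mod_cast hM
  have hMβ : (M : ℝ) ∈ (ConjAct.toConjAct (mapGL ℝ β)⁻¹ • 𝒢).strictPeriods := by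
    have := hper β⁻¹
    rwa [map_inv] at this
  have hΨ : Adm M ((f : ℍ → ℂ) ∣[((w : ℤ) + 2)] (mapGL ℝ β)) :=
    { per := SlashInvariantFormClass.periodic_comp_ofComplex
        (CuspForm.translate f (mapGL ℝ β)) hMβ
      hol := CuspFormClass.holo (CuspForm.translate f (mapGL ℝ β))
      zero := CuspFormClass.zero_at_infty_slash f β }
  obtain ⟨p, hp, hpe⟩ := exists_period_poly one_pos hM' (adm_cuspForm f) hΨ w
    (det_mapGL_pos β) rfl
  have hE := hΨ.iterate_prim hM' (w + 1)
  have heq : (eich f) ∣[(-(w : ℤ))] (mapGL ℝ β) =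
      prim^[w + 1] ((f : ℍ → ℂ) ∣[((w : ℤ) + 2)] (mapGL ℝ β)) + polyFun p := by
    funext τ
    have := hpe τ
    rw [det_mapGL, ofReal_one, one_pow, one_mul] at this
    rw [Pi.add_apply, polyFun, ← this]
    simp [eich]
  have hper1 : Periodic (((eich f) ∣[(-(w : ℤ))] (mapGL ℝ β)) ∘ ofComplex) ((M : ℝ) : ℂ) :=
    SlashInvariantFormClass.periodic_comp_ofComplex
      (SlashInvariantForm.translate (eichSIF f hinv) (mapGL ℝ β)) hMβ
  have hper2 : Periodic ((polyFun p) ∘ ofComplex) ((M : ℝ) : ℂ) := by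
    have e : polyFun p = (eich f) ∣[(-(w : ℤ))] (mapGL ℝ β) -
        prim^[w + 1] ((f : ℍ → ℂ) ∣[((w : ℤ) + 2)] (mapGL ℝ β)) := by
      rw [heq]; abel
    intro z
    have a := hper1 z
    have b := hE.per z
    simp only [comp_apply] at a b ⊢
    rw [e, Pi.sub_apply, Pi.sub_apply, a, b]
  have hconst := poly_const_of_periodic hM'.ne' hper2
  rw [heq]
  refine hE.zero.isBoundedAtImInfty.add ?_
  have : polyFun p = fun _ => p.eval I := by
    funext τ
    rw [polyFun, hconst]
    simp
  rw [this]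
  exact Filter.const_boundedAtFilter _ _

/-- The Eichler integral as a modular form of weight `-w`, when all periods vanish. -/
def eichMF (f : 𝒮) (hinv : ∀ g ∈ 𝒢, (eich f) ∣[(-(w : ℤ))] g = eich f) :
    ModularForm 𝒢 (-(w : ℤ)) where
  toFun := eich f
  slash_action_eq' := hinv
  holo' := (adm_eich f).hol
  bdd_at_cusps' := fun {c} hc => by
    rw [Subgroup.IsArithmetic.isCusp_iff_isCusp_SL2Z] at hc
    rw [OnePoint.isBoundedAt_iff_forall_SL2Z hc]
    intro β _
    exact eich_bdd f hinv β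

theorem eq_zero_of_periods (f : 𝒮) (h : ∀ φ ∈ periodLattice N w, φ f = 0) : f = 0 := by
  have hper : ∀ γ (_ : γ ∈ Γ), per γ f = 0 := by
    intro γ hγ
    ext j
    rw [coeff_zero]
    exact h _ (perCoeff_mem γ hγ j)
  have hinv : ∀ g ∈ 𝒢, (eich f) ∣[(-(w : ℤ))] g = eich f := by
    rintro _ ⟨γ, hγ, rfl⟩
    have := per_spec hγ f
    rw [hper γ hγ] at this
    have h0 : polyFun 0 = 0 := by funext τ; simp [polyFun]
    rw [h0] at this
    exact sub_eq_zero.mp this
  have hF : eichMF f hinv = 0 := by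
    apply ModularForm.sturm_bound_Gamma0 N
    intro n hn
    have hn0 : n = 0 := by
      have h1 : (-(w : ℤ) * ((CongruenceSubgroup.Gamma0 N).index : ℤ)).toNat = 0 := by
        rw [Int.toNat_eq_zero]
        have : (0 : ℤ) ≤ (w : ℤ) * ((CongruenceSubgroup.Gamma0 N).index : ℤ) := by positivity
        linarith
      rw [h1] at hn
      simpa using hn
    subst hn0
    have hadm := adm_eich f
    have hper' : Periodic ((eichMF f hinv : ℍ → ℂ) ∘ ofComplex) (1 : ℝ) := hadm.per
    rw [UpperHalfPlane.qExpansion_coeff_zero one_pos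
      (analyticAt_cuspFunction_zero one_pos hper' hadm.hol hadm.zero.isBoundedAtImInfty) hper']
    exact hadm.zero.valueAtInfty_eq_zero
  have hE : eich f = 0 := by
    have := congrArg (fun F : ModularForm 𝒢 (-(w : ℤ)) => (F : ℍ → ℂ)) hF
    exact this
  have hf := eq_zero_of_iterate_prim_eq_zero one_pos (adm_cuspForm f) (w + 1) hE
  exact DFunLike.coe_injective hf

end

end Fermat.Agent.S22alt
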