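import Fermat.Agent.S22alt.Hecke
import Fermat.Agent.S22alt.Separation

set_option autoImplicit false

open UpperHalfPlane hiding I
open Complex Filter Topology Function Polynomial Matrix.SpecialLinearGroup
open scoped Manifold MatrixGroups ModularForm Real

namespace Fermat.Agent.S22alt

noncomputable section

/-- A `ℤ`-subalgebra of endomorphisms of a complex vector space which stabilises (by transposition)
a finitely generated, point-separating lattice of functionals is a finite `ℤ`-module. -/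
theorem finite_of_lattice {V : Type*} [AddCommGroup V] [Module ℂ V]
    (A : Subalgebra ℤ (Module.End ℂ V)) (L : Submodule ℤ (Module.Dual ℂ V)) (hL : L.FG)
    (hstab : ∀ T ∈ A, ∀ φ ∈ L, φ ∘ₗ T ∈ L) (hsep : ∀ v : V, (∀ φ ∈ L, φ v = 0) → v = 0) :
    Module.Finite ℤ A := by
  have : Module.Finite ℤ L := Module.Finite.iff_fg.mpr hL
  let Θ : A →ₗ[ℤ] (L →ₗ[ℤ] L) :=
    { toFun := fun T =>
        { toFun := fun φ => ⟨(φ : Module.Dual ℂ V) ∘ₗ (T : Module.End ℂ V), hstab T T.2 φ φ.2⟩
          map_add' := fun φ ψ => Subtype.ext (by simp [LinearMap.add_comp])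
          map_smul' := fun c φ => Subtype.ext (by simp [LinearMap.smul_comp]) }
      map_add' := fun T T' => LinearMap.ext fun φ => Subtype.ext (by simp [LinearMap.comp_add])
      map_smul' := fun c T => LinearMap.ext fun φ => Subtype.ext (by
        refine LinearMap.ext fun v => ?_
        simp) }
  have hinj : Injective Θ := by
    rw [← LinearMap.ker_eq_bot, LinearMap.ker_eq_bot']
    intro T hT
    refine Subtype.ext (LinearMap.ext fun v => hsep _ fun φ hφ => ?_)
    have := congrArg (fun F : L →ₗ[ℤ] L => ((F ⟨φ, hφ⟩ : L) : Module.Dual ℂ V) v) hT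
    simpa [Θ] using this
  exact Module.Finite.of_injective Θ hinj


open P2MW.S_ModularForm_heckeT_slash_eq_self_of_mem_Gamma0.ModularForm.HeckeSlashInvariance in
theorem heckeTLin_stable {N : ℕ} [NeZero N] {w : ℕ} {p : ℕ} (hp : p.Prime) (hpN : ¬ p ∣ N) :
    ∀ φ ∈ periodLattice N w, φ ∘ₗ (CuspForm.heckeTLin ((w : ℤ) + 2) hp hpN) ∈ periodLattice N w := by
  haveI : Fact p.Prime := ⟨hp⟩
  haveI : NeZero p := ⟨hp.ne_zero⟩
  have hp0 : p ≠ 0 := hp.ne_zero
  refine hecke_stable (heckeRep p) (fun x => x.elim (p : ℤ) (fun _ => 1))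
    (fun x => x.elim 0 (fun j => (j.val : ℤ))) (fun x => x.elim 1 (fun _ => (p : ℤ)))
    ?_ ?_ ?_ ?_ ?_ ?_ _ ?_
  · intro x
    induction x using OnePoint.rec with
    | infty => simp [heckeRep, hp0]
    | coe j => simp [heckeRep, hp0]
  · intro x
    induction x using OnePoint.rec with
    | infty => simp [heckeRep, hp0]
    | coe j => simp [heckeRep, hp0]
  · intro x
    induction x using OnePoint.rec with
    | infty => simp [heckeRep, hp0]
    | coe j => simp [heckeRep, hp0]
  · intro x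
    induction x using OnePoint.rec with
    | infty => simp [heckeRep, hp0]
    | coe j => simp [heckeRep, hp0]
  · intro x
    induction x using OnePoint.rec with
    | infty =>
      have := ModularForm.det_heckeDiagMatrix_pos p
      rwa [Matrix.GeneralLinearGroup.val_det_apply] at this
    | coe j =>
      have := ModularForm.det_heckeMatrix_pos p j.val
      rwa [Matrix.GeneralLinearGroup.val_det_apply] at this
  · intro γ hγ
    have hcN : (N : ℤ) ∣ γ 1 0 :=
      (ZMod.intCast_zmod_eq_zero_iff_dvd _ _).mp (CongruenceSubgroup.Gamma0_mem.mp hγ)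
    refine ⟨MulAction.toPerm (redMatrix p γ), fun x => ?_⟩
    obtain ⟨g', hg', hmul⟩ := heckeRep_mul hpN γ hcN x
    exact ⟨g', CongruenceSubgroup.Gamma0_mem.mpr ((ZMod.intCast_zmod_eq_zero_iff_dvd _ _).mpr hg'),
      hmul⟩
  · intro f
    rw [CuspForm.coe_heckeTLin_apply, heckeT_eq_sum_onePoint]

open P2MW.S_ModularForm_heckeT_slash_eq_self_of_mem_Gamma0.ModularForm.HeckeSlashInvariance in
theorem heckeULin_stable {N : ℕ} [NeZero N] {w : ℕ} {p : ℕ} (hp : p.Prime) (hpN : p ∣ N) :
    ∀ φ ∈ periodLattice N w, φ ∘ₗ (CuspForm.heckeULin ((w : ℤ) + 2) hpN) ∈ periodLattice N w := by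
  haveI : NeZero p := ⟨hp.ne_zero⟩
  have hp0 : p ≠ 0 := hp.ne_zero
  refine hecke_stable (fun x : ZMod p => ModularForm.heckeMatrix p x.val) (fun _ => 1)
    (fun x => (x.val : ℤ)) (fun _ => (p : ℤ)) ?_ ?_ ?_ ?_ ?_ ?_ _ ?_
  · intro x; simp [hp0]
  · intro x; simp [hp0]
  · intro x; simp [hp0]
  · intro x; simp [hp0]
  · intro x
    have := ModularForm.det_heckeMatrix_pos p x.val
    rwa [Matrix.GeneralLinearGroup.val_det_apply] at this
  · intro γ hγ
    have hcN : (N : ℤ) ∣ γ 1 0 :=
      (ZMod.intCast_zmod_eq_zero_iff_dvd _ _).mp (CongruenceSubgroup.Gamma0_mem.mp hγ)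
    have hc : (p : ℤ) ∣ γ 1 0 := (Int.natCast_dvd_natCast.mpr hpN).trans hcN
    refine ⟨affinePerm γ ((ZMod.intCast_zmod_eq_zero_iff_dvd _ _).mpr hc), fun x => ?_⟩
    obtain ⟨g', hg', hmul⟩ := heckeMatrix_mul_of_dvd γ hc x
    refine ⟨g', ?_, hmul⟩
    rw [CongruenceSubgroup.Gamma0_mem, hg']
    push_cast
    rw [CongruenceSubgroup.Gamma0_mem.mp hγ, mul_zero]
  · intro f
    rw [CuspForm.coe_heckeULin_apply, heckeU_eq_sum_zmod]

/-- The Hecke algebra in weight `w + 2 ≥ 2` is a finite `ℤ`-module. -/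
theorem finite_heckeAlgebra_add_two (N : ℕ) [NeZero N] (w : ℕ) (S : Set ℕ) :
    Module.Finite ℤ (CuspForm.heckeAlgebra N ((w : ℤ) + 2) S) := by
  refine finite_of_lattice _ (periodLattice N w) periodLattice_fg ?_ eq_zero_of_periods
  intro T hT
  induction hT using Algebra.adjoin_induction with
  | mem T hT =>
    rcases hT with ⟨ℓ, hℓ, hℓN, -, rfl⟩ | ⟨q, hqN, hq, -, rfl⟩
    · exact heckeTLin_stable hℓ hℓN
    · exact heckeULin_stable hq hqN
  | algebraMap r =>
    intro φ hφ
    have : φ ∘ₗ (algebraMap ℤ (Module.End ℂ _) r) = r • φ := by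
      refine LinearMap.ext fun v => ?_
      simp
    rw [this]
    exact Submodule.smul_mem _ _ hφ
  | add T T' _ _ h h' =>
    intro φ hφ
    rw [LinearMap.comp_add]
    exact add_mem (h φ hφ) (h' φ hφ)
  | mul T T' _ _ h h' =>
    intro φ hφ
    have : φ ∘ₗ (T * T') = (φ ∘ₗ T) ∘ₗ T' := rfl
    rw [this]
    exact h' _ (h φ hφ)

end

end Fermat.Agent.S22alt
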