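import Fermat.Agent.S22alt.Cocycle

set_option autoImplicit false

open UpperHalfPlane hiding I
open Complex Filter Topology Function Polynomial Matrix.SpecialLinearGroup
open scoped Manifold MatrixGroups ModularForm Real

namespace Fermat.Agent.S22alt

noncomputable section

theorem IsPrim.sum {ι : Type*} (s : Finset ι) {Ψ Φ : ι → ℍ → ℂ} (h : ∀ i ∈ s, IsPrim (Ψ i) (Φ i)) :
    IsPrim (∑ i ∈ s, Ψ i) (∑ i ∈ s, Φ i) := by
  classical
  induction s using Finset.induction_on with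
  | empty => simpa using isPrim_zero
  | insert a s ha ih =>
    rw [Finset.sum_insert ha, Finset.sum_insert ha]
    exact (h a (Finset.mem_insert_self a s)).add
      (ih fun i hi => h i (Finset.mem_insert_of_mem hi))

theorem isZeroAtImInfty_sum {ι : Type*} (s : Finset ι) {Ψ : ι → ℍ → ℂ}
    (h : ∀ i ∈ s, IsZeroAtImInfty (Ψ i)) : IsZeroAtImInfty (∑ i ∈ s, Ψ i) := by
  have := tendsto_finset_sum s h
  simp only [Finset.sum_const_zero] at this
  have e : (∑ i ∈ s, Ψ i) = fun τ => ∑ i ∈ s, Ψ i τ := by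
    funext τ; simp
  rw [e]
  exact this

theorem iterate_prim_sum_slash_upper {h : ℝ} (hh : 0 < h) {Φ : ℍ → ℂ} (hΦ : Adm h Φ) (k : ℤ)
    {ι : Type*} (s : Finset ι) (g : ι → GL (Fin 2) ℝ) (hg : ∀ i, 0 < (g i).val.det)
    (hg10 : ∀ i, (g i) 1 0 = 0) (n : ℕ) :
    prim^[n] (∑ i ∈ s, Φ ∣[k] g i) =
      ∑ i ∈ s, (((g i).val.det : ℂ) ^ n) • ((prim^[n] Φ) ∣[k - 2 * n] g i) := by
  induction n with
  | zero => simp
  | succ n ih =>
    rw [iterate_succ_apply', ih]
    have hn := hΦ.iterate_prim hh n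
    have h1 : IsPrim (∑ i ∈ s, (((g i).val.det : ℂ) ^ n) •
        (((g i).val.det : ℂ) • ((prim (prim^[n] Φ)) ∣[k - 2 * n - 2] g i)))
        (∑ i ∈ s, (((g i).val.det : ℂ) ^ n) • ((prim^[n] Φ) ∣[k - 2 * n] g i)) :=
      IsPrim.sum s fun i _ =>
        (isPrim_slash_upper (hn.isPrim_prim hh) (k - 2 * n) (hg i) (hg10 i)).const_smul _
    have h2 : IsZeroAtImInfty (∑ i ∈ s, (((g i).val.det : ℂ) ^ n) •
        (((g i).val.det : ℂ) • ((prim (prim^[n] Φ)) ∣[k - 2 * n - 2] g i))) := by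
      refine isZeroAtImInfty_sum s fun i _ => ?_
      have h3 : IsZeroAtImInfty ((prim (prim^[n] Φ)) ∣[k - 2 * n - 2] g i) :=
        (hn.prim' hh).zero.slash _ (hg10 i)
      have h4 := (Tendsto.const_smul h3 ((g i).val.det : ℂ)).const_smul (((g i).val.det : ℂ) ^ n)
      simp only [smul_zero] at h4
      exact h4
    rw [prim_eq h1 h2]
    refine Finset.sum_congr rfl fun i _ => ?_
    rw [iterate_succ_apply', smul_smul, pow_succ]
    congr 2
    push_cast
    ring

variable {N : ℕ} [NeZero N] {w : ℕ}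

local notation "Γ" => CongruenceSubgroup.Gamma0 N
local notation "𝒮" => CuspForm (CongruenceSubgroup.Gamma0 N) ((w : ℤ) + 2)

/-- Abstract Hecke operators (given by upper triangular integral coset representatives permuted
by `Γ₀(N)`) preserve the period lattice. -/
theorem hecke_stable {ι : Type*} [Fintype ι] (α : ι → GL (Fin 2) ℝ) (a b d : ι → ℤ)
    (h00 : ∀ x, (α x) 0 0 = a x) (h01 : ∀ x, (α x) 0 1 = b x) (h10 : ∀ x, (α x) 1 0 = 0)
    (h11 : ∀ x, (α x) 1 1 = d x) (hdet : ∀ x, 0 < (α x).val.det)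
    (hperm : ∀ γ ∈ Γ, ∃ σ : Equiv.Perm ι, ∀ x, ∃ γ' ∈ Γ,
      α x * mapGL ℝ γ = mapGL ℝ γ' * α (σ x))
    (T : 𝒮 →ₗ[ℂ] 𝒮) (hT : ∀ f : 𝒮, ⇑(T f) = ∑ x, (f : ℍ → ℂ) ∣[((w : ℤ) + 2)] α x) :
    ∀ φ ∈ periodLattice N w, φ ∘ₗ T ∈ periodLattice N w := by
  -- Eichler integral of `T f`
  have heich : ∀ f : 𝒮, eich (T f) =
      ∑ x, (((α x).val.det : ℂ) ^ (w + 1)) • ((eich f) ∣[(-(w : ℤ))] α x) := by
    intro f
    rw [eich, hT, iterate_prim_sum_slash_upper one_pos (adm_cuspForm f) _ _ α hdet h10]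
    refine Finset.sum_congr rfl fun x _ => ?_
    rw [show ((w : ℤ) + 2 - 2 * ((w + 1 : ℕ) : ℤ)) = -(w : ℤ) by push_cast; ring]
    rfl
  intro φ hφ
  induction hφ using Submodule.span_induction with
  | zero => simp
  | add x y _ _ hx hy => rw [LinearMap.add_comp]; exact add_mem hx hy
  | smul c x _ hx => rw [LinearMap.smul_comp]; exact Submodule.smul_mem _ _ hx
  | mem φ hφ =>
    obtain ⟨γ, hγ, j, rfl⟩ := hφ
    obtain ⟨σ, hσ⟩ := hperm γ hγ
    choose γ' hγ' hmul using hσ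
    have hdetσ : ∀ x, (α (σ x)).val.det = (α x).val.det := by
      intro x
      have := congrArg (fun g : GL (Fin 2) ℝ => g.val.det) (hmul x)
      simp only [Units.val_mul, Matrix.det_mul, det_mapGL, mul_one, one_mul] at this
      exact this.symm
    have hper : ∀ f : 𝒮, per γ (T f) =
        ∑ x, act w ((a (σ x) : ℤ) : ℂ) ((b (σ x) : ℤ) : ℂ) ((0 : ℤ) : ℂ) ((d (σ x) : ℤ) : ℂ)
          (per (γ' x) f) := by
      intro f
      refine per_eq hγ _ ?_
      rw [polyFun_sum, heich, SlashAction.sum_slash]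
      have e2 : ∑ x, (((α x).val.det : ℂ) ^ (w + 1)) • ((eich f) ∣[(-(w : ℤ))] α x) =
          ∑ x, (((α (σ x)).val.det : ℂ) ^ (w + 1)) • ((eich f) ∣[(-(w : ℤ))] α (σ x)) :=
        (Equiv.sum_comp σ
          (fun x => (((α x).val.det : ℂ) ^ (w + 1)) • ((eich f) ∣[(-(w : ℤ))] α x))).symm
      rw [e2, ← Finset.sum_sub_distrib]
      refine Finset.sum_congr rfl fun x _ => ?_
      have h3 := polyFun_slash w (natDegree_per_le (γ' x) f) (hdet (σ x))
      rw [h00, h01, h10, h11] at h3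
      push_cast at h3 ⊢
      rw [← h3, ← per_spec (hγ' x) f, smul_slash_of_det_pos _ _ _ (det_mapGL_pos γ),
        ← SlashAction.slash_mul, hmul, SlashAction.slash_mul, sub_slash, smul_sub, hdetσ]
    have : perCoeff γ hγ j ∘ₗ T = ∑ x, ∑ i ∈ Finset.range (w + 1),
        (actCoeff w (a (σ x)) (b (σ x)) 0 (d (σ x)) j i) • perCoeff (γ' x) (hγ' x) i := by
      refine LinearMap.ext fun f => ?_
      rw [LinearMap.comp_apply, perCoeff_apply, hper, finsetSum_coeff, LinearMap.sum_apply]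
      refine Finset.sum_congr rfl fun x _ => ?_
      rw [coeff_act_intCast, LinearMap.sum_apply]
      refine Finset.sum_congr rfl fun i _ => ?_
      rw [LinearMap.smul_apply, perCoeff_apply, zsmul_eq_mul]
    rw [this]
    exact Submodule.sum_mem _ fun x _ => Submodule.sum_mem _ fun i _ =>
      Submodule.smul_mem _ _ (perCoeff_mem _ _ _)

end

end Fermat.Agent.S22alt
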