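import Fermat.Agent.S22alt.Prim

set_option autoImplicit false

open UpperHalfPlane hiding I
open Complex Filter Topology Function Polynomial
open scoped Manifold MatrixGroups ModularForm Real

namespace Fermat.Agent.S22alt

noncomputable section

/-! ### The action of `2 × 2` matrices on polynomials of degree `≤ w` -/

section act

variable {R : Type*} [CommRing R]

/-- `act w a b c d p = (cX+d)^w p((aX+b)/(cX+d))`. -/
def act (w : ℕ) (a b c d : R) (p : R[X]) : R[X] :=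
  ∑ j ∈ Finset.range (w + 1), C (p.coeff j) * (C a * X + C b) ^ j * (C c * X + C d) ^ (w - j)

theorem natDegree_act_le (w : ℕ) (a b c d : R) (p : R[X]) : (act w a b c d p).natDegree ≤ w := by
  refine natDegree_sum_le_of_forall_le _ _ fun j hj => ?_
  have hj' : j ≤ w := Nat.lt_succ_iff.mp (Finset.mem_range.mp hj)
  have h1 : (C a * X + C b : R[X]).natDegree ≤ 1 := natDegree_linear_le
  have h2 : (C c * X + C d : R[X]).natDegree ≤ 1 := natDegree_linear_le
  calc _ ≤ (C (p.coeff j) * (C a * X + C b) ^ j).natDegree + ((C c * X + C d) ^ (w - j)).natDegree :=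
        natDegree_mul_le
    _ ≤ ((C (p.coeff j)).natDegree + ((C a * X + C b) ^ j).natDegree) + ((C c * X + C d) ^ (w - j)).natDegree := by
        gcongr; exact natDegree_mul_le
    _ ≤ (0 + j * 1) + (w - j) * 1 := by
        gcongr
        · simp
        · exact natDegree_pow_le_of_le j h1
        · exact natDegree_pow_le_of_le (w - j) h2
    _ = w := by omega

theorem act_add (w : ℕ) (a b c d : R) (p q : R[X]) :
    act w a b c d (p + q) = act w a b c d p + act w a b c d q := by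
  simp only [act, coeff_add, C_add, add_mul, Finset.sum_add_distrib]

theorem act_zero (w : ℕ) (a b c d : R) : act w a b c d (0 : R[X]) = 0 := by
  simp [act]

theorem act_neg (w : ℕ) (a b c d : R) (p : R[X]) :
    act w a b c d (-p) = - act w a b c d p := by
  simp only [act, coeff_neg, C_neg, neg_mul, Finset.sum_neg_distrib]

theorem act_C_mul (w : ℕ) (a b c d r : R) (p : R[X]) :
    act w a b c d (C r * p) = C r * act w a b c d p := by
  simp only [act, coeff_C_mul, C_mul, Finset.mul_sum, mul_assoc]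

/-- The integer matrix of `act` in the monomial basis. -/
def actCoeff (w : ℕ) (a b c d : ℤ) (i j : ℕ) : ℤ :=
  ((C a * X + C b : ℤ[X]) ^ j * (C c * X + C d) ^ (w - j)).coeff i

theorem coeff_act_intCast (w : ℕ) (a b c d : ℤ) (p : R[X]) (i : ℕ) :
    (act w (a : R) b c d p).coeff i =
      ∑ j ∈ Finset.range (w + 1), (actCoeff w a b c d i j : R) * p.coeff j := by
  simp only [act, finsetSum_coeff]
  refine Finset.sum_congr rfl fun j _ => ?_
  have h : ((C (a : R) * X + C (b : R)) ^ j * (C (c : R) * X + C (d : R)) ^ (w - j) : R[X]) =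
      ((C a * X + C b : ℤ[X]) ^ j * (C c * X + C d) ^ (w - j)).map (Int.castRingHom R) := by
    simp
  rw [mul_assoc, coeff_C_mul, h, coeff_map, actCoeff, mul_comm]
  simp

end act

theorem eval_act (w : ℕ) (a b c d : ℂ) (p : ℂ[X]) (hp : p.natDegree ≤ w) (z : ℂ)
    (hz : c * z + d ≠ 0) :
    (act w a b c d p).eval z = (c * z + d) ^ w * p.eval ((a * z + b) / (c * z + d)) := by
  rw [eval_eq_sum_range' (Nat.lt_succ_of_le hp), act, eval_finsetSum, Finset.mul_sum]
  refine Finset.sum_congr rfl fun j hj => ?_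
  have hj' : j ≤ w := Nat.lt_succ_iff.mp (Finset.mem_range.mp hj)
  obtain ⟨m, rfl⟩ := Nat.exists_eq_add_of_le hj'
  simp only [eval_mul, eval_C, eval_pow, eval_add, eval_X, Nat.add_sub_cancel_left]
  rw [div_pow, pow_add]
  have hz' : (c * z + d) ^ j ≠ 0 := pow_ne_zero _ hz
  generalize (c * z + d) ^ j = u at hz'
  field_simp

/-- Two polynomials agreeing on the upper half plane are equal. -/
theorem poly_eq_of_eval_eq {p q : ℂ[X]} (h : ∀ τ : ℍ, p.eval (τ : ℂ) = q.eval (τ : ℂ)) : p = q := by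
  refine Polynomial.eq_of_infinite_eval_eq p q ?_
  have hinf : (Set.range fun n : ℕ => ((n : ℂ) + I)).Infinite := by
    refine Set.infinite_range_of_injective fun m n hmn => ?_
    simpa using hmn
  refine hinf.mono ?_
  rintro _ ⟨n, rfl⟩
  exact h ⟨(n : ℂ) + I, by simp⟩

/-! ### The kernel `K` -/

/-- `K w Φ X τ = ∫_{i∞}^τ Φ(z) (X - z)^w dz`. -/
def K : ℕ → (ℍ → ℂ) → ℂ → ℍ → ℂ
  | 0, Φ, _, τ => prim Φ τ
  | (w + 1), Φ, X, τ => (X - τ) ^ (w + 1) * prim Φ τ + (w + 1) * K w (prim Φ) X τ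

theorem isPrim_sub_pow (X : ℂ) (n : ℕ) :
    IsPrim (fun τ : ℍ => (X - τ) ^ (n + 1)) (fun τ : ℍ => -((n + 1 : ℕ) * (X - τ) ^ n)) := by
  refine isPrim_of_hasDerivAt (fun z => (X - z) ^ (n + 1)) (fun z => ?_) (fun _ => rfl)
  have := ((hasDerivAt_id (z : ℂ)).const_sub X).fun_pow (n + 1)
  simpa using this

theorem K_isPrim {h : ℝ} (hh : 0 < h) (w : ℕ) {Φ : ℍ → ℂ} (hΦ : Adm h Φ) (X : ℂ) :
    IsPrim (K w Φ X) (fun τ => (X - τ) ^ w * Φ τ) := by
  induction w generalizing Φ with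
  | zero => simpa [K] using hΦ.isPrim_prim hh
  | succ w ih =>
    have h1 := (isPrim_sub_pow X w).mul (hΦ.isPrim_prim hh)
    have h2 := (ih (hΦ.prim' hh)).const_smul ((w : ℂ) + 1)
    have h3 := h1.add h2
    have e1 : K (w + 1) Φ X = (fun τ : ℍ => (X - τ) ^ (w + 1)) * prim Φ +
        ((w : ℂ) + 1) • K w (prim Φ) X := by
      funext τ; simp [K]
    rw [e1]
    convert h3 using 1
    funext τ
    simp
    ring

theorem K_diag (w : ℕ) (Φ : ℍ → ℂ) (τ : ℍ) : K w Φ τ τ = w.factorial * (prim^[w + 1] Φ) τ := by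
  induction w generalizing Φ with
  | zero => simp [K]
  | succ w ih =>
    rw [K, ih, sub_self, zero_pow (Nat.succ_ne_zero w), zero_mul, zero_add, Nat.factorial_succ,
      iterate_succ_apply (f := prim) (n := w + 1)]
    push_cast
    ring

theorem K_poly (w : ℕ) (Φ : ℍ → ℂ) (τ : ℍ) :
    ∃ p : ℂ[X], p.natDegree ≤ w ∧ ∀ X : ℂ, K w Φ X τ = p.eval X := by
  induction w generalizing Φ with
  | zero => exact ⟨C (prim Φ τ), by simp, fun X => by simp [K]⟩
  | succ w ih =>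
    obtain ⟨p, hp, hpe⟩ := ih (prim Φ)
    refine ⟨(X - C (τ : ℂ)) ^ (w + 1) * C (prim Φ τ) + C ((w : ℂ) + 1) * p, ?_, fun Y => ?_⟩
    · refine (natDegree_add_le _ _).trans (max_le ?_ ?_)
      · refine natDegree_mul_le.trans ?_
        have : ((X - C (τ : ℂ)) ^ (w + 1)).natDegree ≤ (w + 1) * 1 :=
          natDegree_pow_le_of_le _ (natDegree_X_sub_C_le _)
        simp
      · refine natDegree_mul_le.trans ?_
        simp only [natDegree_C, zero_add]
        omega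
    · simp [K, hpe]


/-! ### Slash action in terms of Möbius transformations -/

theorem σ_eq_of_det_pos {g : GL (Fin 2) ℝ} (hg : 0 < g.val.det) (x : ℂ) : σ g x = x := by
  have hdet : g.det.val = g.val.det := Matrix.GeneralLinearGroup.val_det_apply g
  simp [σ, hdet, hg]

theorem slash_apply_of_det_pos (F : ℍ → ℂ) (k : ℤ) {g : GL (Fin 2) ℝ} (hg : 0 < g.val.det)
    (τ : ℍ) : (F ∣[k] g) τ = F (g • τ) * (g.val.det : ℂ) ^ (k - 1) * denom g τ ^ (-k) := by
  have hdet : g.det.val = g.val.det := Matrix.GeneralLinearGroup.val_det_apply g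
  rw [ModularForm.slash_apply, σ_eq_of_det_pos hg, hdet, abs_of_pos hg]

theorem det_pow_mul_slash_neg (F : ℍ → ℂ) (w : ℕ) {g : GL (Fin 2) ℝ} (hg : 0 < g.val.det)
    (τ : ℍ) :
    (g.val.det : ℂ) ^ (w + 1) * (F ∣[(-(w : ℤ))] g) τ = denom g τ ^ w * F (g • τ) := by
  have hdetℂ : (g.val.det : ℂ) ≠ 0 := Complex.ofReal_ne_zero.mpr hg.ne'
  rw [slash_apply_of_det_pos F _ hg, neg_neg, zpow_natCast,
    show (-(w : ℤ) - 1) = -((w + 1 : ℕ) : ℤ) by push_cast; ring, zpow_neg, zpow_natCast]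
  field_simp

theorem smul_sub_smul {g : GL (Fin 2) ℝ} (hg : 0 < g.val.det) (X τ : ℍ) :
    ((g • X : ℍ) : ℂ) - ((g • τ : ℍ) : ℂ) =
      (g.val.det : ℂ) * ((X : ℂ) - τ) / (denom g X * denom g τ) := by
  have hdet : g.det.val = g.val.det := Matrix.GeneralLinearGroup.val_det_apply g
  have hg' : 0 < g.det.val := hdet ▸ hg
  have h1 := denom_ne_zero g X
  have h2 := denom_ne_zero g τ
  rw [coe_smul_of_det_pos hg', coe_smul_of_det_pos hg', Matrix.det_fin_two]
  field_simp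
  simp only [num, denom]
  push_cast
  ring

/-- **Period polynomials.** If `Ψ = Φ ∣[w+2] g` then the Eichler integrals of `Φ` and `Ψ`
differ, after the weight `-w` slash, by a polynomial of degree at most `w`. -/
theorem exists_period_poly {h₁ h₂ : ℝ} (hh₁ : 0 < h₁) (hh₂ : 0 < h₂) {Φ Ψ : ℍ → ℂ}
    (hΦ : Adm h₁ Φ) (hΨ : Adm h₂ Ψ) (w : ℕ) {g : GL (Fin 2) ℝ} (hg : 0 < g.val.det)
    (hΨΦ : Ψ = Φ ∣[((w : ℤ) + 2)] g) :
    ∃ p : ℂ[X], p.natDegree ≤ w ∧ ∀ τ : ℍ,
      (g.val.det : ℂ) ^ (w + 1) * ((prim^[w + 1] Φ) ∣[(-(w : ℤ))] g) τ - (prim^[w + 1] Ψ) τ =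
        p.eval (τ : ℂ) := by
  have hdetℂ : (g.val.det : ℂ) ≠ 0 := Complex.ofReal_ne_zero.mpr hg.ne'
  -- the auxiliary function, constant in `τ`
  have key : ∀ X : ℍ, IsPrim (fun τ => denom g X ^ w * K w Φ ((g • X : ℍ) : ℂ) (g • τ) -
      K w Ψ X τ) 0 := by
    intro X
    have h1 := ((K_isPrim hh₁ w hΦ ((g • X : ℍ) : ℂ)).comp_smul hg).const_smul (denom g X ^ w)
    have h2 := K_isPrim hh₂ w hΨ (X : ℂ)
    have h3 := h1.sub h2
    have hzero : ((denom g X ^ w • fun τ : ℍ => (((g • X : ℍ) : ℂ) - ((g • τ : ℍ) : ℂ)) ^ w * Φ (g • τ) *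
        ((g.val.det : ℂ) / denom g τ ^ 2)) - fun τ : ℍ => ((X : ℂ) - τ) ^ w * Ψ τ) = 0 := by
      funext τ
      have hX := denom_ne_zero g X
      have hτ := denom_ne_zero g τ
      simp only [Pi.zero_apply, Pi.sub_apply, Pi.smul_apply, smul_eq_mul]
      rw [hΨΦ, slash_apply_of_det_pos Φ _ hg, smul_sub_smul hg,
        show ((w : ℤ) + 2 - 1) = ((w + 1 : ℕ) : ℤ) by push_cast; ring,
        show (-((w : ℤ) + 2)) = -((w + 2 : ℕ) : ℤ) by push_cast; ring, zpow_neg, zpow_natCast,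
        zpow_natCast, div_pow, mul_pow, mul_pow]
      field_simp
      ring
    rw [hzero] at h3
    exact h3
  obtain ⟨P, hP, hPe⟩ := K_poly w Φ (g • UpperHalfPlane.I)
  obtain ⟨Q, hQ, hQe⟩ := K_poly w Ψ UpperHalfPlane.I
  have hfac : (w.factorial : ℂ) ≠ 0 := by exact_mod_cast w.factorial_ne_zero
  refine ⟨C ((w.factorial : ℂ)⁻¹) * (act w (g 0 0 : ℂ) (g 0 1 : ℂ) (g 1 0 : ℂ) (g 1 1 : ℂ) P - Q),
    ?_, fun τ => ?_⟩
  · refine natDegree_mul_le.trans ?_
    rw [natDegree_C, zero_add]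
    exact (natDegree_sub_le _ _).trans (max_le (natDegree_act_le _ _ _ _ _ _) hQ)
  · have hc := (key τ).const_of_zero τ UpperHalfPlane.I
    rw [K_diag, K_diag, hPe, hQe] at hc
    have hdet : g.det.val = g.val.det := Matrix.GeneralLinearGroup.val_det_apply g
    have hg' : 0 < g.det.val := hdet ▸ hg
    rw [det_pow_mul_slash_neg _ w hg, eval_mul, eval_C, eval_sub,
      eval_act w _ _ _ _ P hP (τ : ℂ) (denom_ne_zero g τ)]
    have e1 : ((g 1 0 : ℂ) * (τ : ℂ) + (g 1 1 : ℂ)) = denom g τ := rfl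
    have e2 : (((g 0 0 : ℂ) * (τ : ℂ) + (g 0 1 : ℂ)) / denom g τ) = ((g • τ : ℍ) : ℂ) := by
      rw [coe_smul_of_det_pos hg']; rfl
    rw [e1, e2, ← hc]
    field_simp


/-! ### Upper triangular matrices: exact transformation of the Eichler integral -/

theorem isPrim_slash_upper {F Φ : ℍ → ℂ} (hF : IsPrim F Φ) (k : ℤ) {g : GL (Fin 2) ℝ}
    (hg : 0 < g.val.det) (hg10 : g 1 0 = 0) :
    IsPrim ((g.val.det : ℂ) • (F ∣[k - 2] g)) (Φ ∣[k] g) := by
  have hdetℂ : (g.val.det : ℂ) ≠ 0 := Complex.ofReal_ne_zero.mpr hg.ne'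
  have hden : ∀ τ : ℍ, denom g τ = (g 1 1 : ℂ) := fun τ => by simp [denom, hg10]
  have hd : (g 1 1 : ℂ) ≠ 0 := by
    have := denom_ne_zero g UpperHalfPlane.I
    rwa [hden] at this
  have h1 := (hF.comp_smul hg).const_smul
    ((g.val.det : ℂ) * ((g.val.det : ℂ) ^ (k - 2 - 1) * (g 1 1 : ℂ) ^ (-(k - 2))))
  have e1 : ((g.val.det : ℂ) • (F ∣[k - 2] g)) =
      ((g.val.det : ℂ) * ((g.val.det : ℂ) ^ (k - 2 - 1) * (g 1 1 : ℂ) ^ (-(k - 2)))) •
        fun τ => F (g • τ) := by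
    funext τ
    simp only [Pi.smul_apply, smul_eq_mul]
    rw [slash_apply_of_det_pos F _ hg, hden]
    ring
  have e2 : (Φ ∣[k] g) =
      ((g.val.det : ℂ) * ((g.val.det : ℂ) ^ (k - 2 - 1) * (g 1 1 : ℂ) ^ (-(k - 2)))) •
        fun τ => Φ (g • τ) * ((g.val.det : ℂ) / denom g τ ^ 2) := by
    funext τ
    simp only [Pi.smul_apply, smul_eq_mul]
    rw [slash_apply_of_det_pos Φ _ hg, hden,
      show k - 1 = (k - 2 - 1) + 2 by ring, show -k = -(k - 2) + (-2) by ring,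
      zpow_add₀ hdetℂ, zpow_add₀ hd]
    simp only [zpow_neg, zpow_ofNat]
    field_simp
  rw [e1, e2]
  exact h1

theorem iterate_prim_slash_upper {h : ℝ} (hh : 0 < h) {Φ : ℍ → ℂ} (hΦ : Adm h Φ) (k : ℤ)
    {g : GL (Fin 2) ℝ} (hg : 0 < g.val.det) (hg10 : g 1 0 = 0) (n : ℕ) :
    prim^[n] (Φ ∣[k] g) = ((g.val.det : ℂ) ^ n) • ((prim^[n] Φ) ∣[k - 2 * n] g) := by
  induction n with
  | zero => simp
  | succ n ih =>
    rw [iterate_succ_apply', ih]
    have hn := hΦ.iterate_prim hh n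
    have h1 := (isPrim_slash_upper (hn.isPrim_prim hh) (k - 2 * n) hg hg10).const_smul
      ((g.val.det : ℂ) ^ n)
    have h2 : IsZeroAtImInfty (((g.val.det : ℂ) ^ n) •
        ((g.val.det : ℂ) • ((prim (prim^[n] Φ)) ∣[k - 2 * n - 2] g))) := by
      have h3 : IsZeroAtImInfty ((prim (prim^[n] Φ)) ∣[k - 2 * n - 2] g) :=
        (hn.prim' hh).zero.slash _ hg10
      have h4 := (Tendsto.const_smul h3 (g.val.det : ℂ)).const_smul ((g.val.det : ℂ) ^ n)
      simp only [smul_zero] at h4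
      exact h4
    rw [prim_eq h1 h2, iterate_succ_apply', smul_smul, pow_succ]
    congr 2
    push_cast
    ring

end

end Fermat.Agent.S22alt
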