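import Mathlib

set_option autoImplicit false

open UpperHalfPlane hiding I
open Complex Filter Topology Function
open scoped Manifold MatrixGroups ModularForm Real

namespace Fermat.Agent.S22alt

noncomputable section

local notation "𝕢" => Periodic.qParam

/-- `Ψ` is a holomorphic primitive of `Φ` on the upper half plane. -/
def IsPrim (Ψ Φ : ℍ → ℂ) : Prop :=
  ∀ z : ℍ, HasDerivAt (Ψ ∘ ofComplex) (Φ z) (z : ℂ)

theorem IsPrim.mdiff {Ψ Φ : ℍ → ℂ} (h : IsPrim Ψ Φ) : MDiff Ψ := fun z =>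
  UpperHalfPlane.mdifferentiableAt_iff.mpr (h z).differentiableAt

theorem IsPrim.add {Ψ₁ Φ₁ Ψ₂ Φ₂ : ℍ → ℂ} (h₁ : IsPrim Ψ₁ Φ₁) (h₂ : IsPrim Ψ₂ Φ₂) :
    IsPrim (Ψ₁ + Ψ₂) (Φ₁ + Φ₂) := fun z => (h₁ z).add (h₂ z)

theorem IsPrim.sub {Ψ₁ Φ₁ Ψ₂ Φ₂ : ℍ → ℂ} (h₁ : IsPrim Ψ₁ Φ₁) (h₂ : IsPrim Ψ₂ Φ₂) :
    IsPrim (Ψ₁ - Ψ₂) (Φ₁ - Φ₂) := fun z => (h₁ z).sub (h₂ z)

theorem IsPrim.const_smul {Ψ Φ : ℍ → ℂ} (c : ℂ) (h : IsPrim Ψ Φ) :
    IsPrim (c • Ψ) (c • Φ) := fun z => (h z).const_smul c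

theorem IsPrim.unique_right {Ψ Φ₁ Φ₂ : ℍ → ℂ} (h₁ : IsPrim Ψ Φ₁) (h₂ : IsPrim Ψ Φ₂) : Φ₁ = Φ₂ :=
  funext fun z => (h₁ z).unique (h₂ z)

theorem isPrim_zero : IsPrim 0 0 := fun z => by
  simp

/-- A function on `ℍ` with vanishing derivative is constant. -/
theorem IsPrim.const_of_zero {Ψ : ℍ → ℂ} (h : IsPrim Ψ 0) (z w : ℍ) : Ψ z = Ψ w := by
  have hconv : IsPreconnected upperHalfPlaneSet :=
    (convex_halfSpace_im_gt 0).isPreconnected
  have hd : DifferentiableOn ℂ (Ψ ∘ ofComplex) upperHalfPlaneSet := fun x hx =>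
    (h ⟨x, hx⟩).differentiableAt.differentiableWithinAt
  have hz : Set.EqOn (deriv (Ψ ∘ ofComplex)) 0 upperHalfPlaneSet := fun x hx =>
    (h ⟨x, hx⟩).deriv
  have := isOpen_upperHalfPlaneSet.is_const_of_deriv_eq_zero hconv hd hz z.2 w.2
  simpa using this

/-- Two primitives of the same function which both vanish at `i∞` coincide. -/
theorem IsPrim.unique_left {Ψ₁ Ψ₂ Φ : ℍ → ℂ} (h₁ : IsPrim Ψ₁ Φ) (h₂ : IsPrim Ψ₂ Φ)
    (z₁ : IsZeroAtImInfty Ψ₁) (z₂ : IsZeroAtImInfty Ψ₂) : Ψ₁ = Ψ₂ := by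
  have h : IsPrim (Ψ₁ - Ψ₂) 0 := by simpa using h₁.sub h₂
  have hlim : Tendsto (Ψ₁ - Ψ₂) atImInfty (𝓝 0) := by
    have := Tendsto.sub z₁ z₂
    rw [sub_zero] at this
    exact this
  funext z
  have hc : (Ψ₁ - Ψ₂) = fun _ => (Ψ₁ - Ψ₂) z := funext fun w => h.const_of_zero w z
  rw [hc] at hlim
  have := tendsto_nhds_unique tendsto_const_nhds hlim
  simpa [sub_eq_zero] using this

/-- Admissible functions: holomorphic, `h`-periodic, vanishing at `i∞`. -/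
structure Adm (h : ℝ) (Φ : ℍ → ℂ) : Prop where
  per : Periodic (Φ ∘ ofComplex) h
  hol : MDiff Φ
  zero : IsZeroAtImInfty Φ

theorem qParam_add_period {h : ℝ} (hh : h ≠ 0) (w : ℂ) : 𝕢 h (w + h) = 𝕢 h w := by
  have hh' : (h : ℂ) ≠ 0 := by exact_mod_cast hh
  simp only [Periodic.qParam]
  rw [show 2 * π * I * (w + h) / h = 2 * π * I * w / h + 2 * π * I by field_simp]
  exact exp_periodic _

theorem periodic_comp_ofComplex_of_qParam {h : ℝ} (hh : h ≠ 0) (g : ℂ → ℂ) :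
    Periodic ((fun τ : ℍ => g (𝕢 h τ)) ∘ ofComplex) h := by
  intro w
  by_cases hw : 0 < im w
  · have hw' : 0 < im (w + h) := by simpa using hw
    simp only [comp_apply, ofComplex_apply_of_im_pos hw', ofComplex_apply_of_im_pos hw]
    congr 1
    exact qParam_add_period hh w
  · have hw0 : im w ≤ 0 := not_lt.mp hw
    have hw' : im (w + h) ≤ 0 := by simpa using hw0
    simp [ofComplex_apply_of_im_nonpos hw', ofComplex_apply_of_im_nonpos hw0]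

theorem exists_prim {h : ℝ} (hh : 0 < h) {Φ : ℍ → ℂ} (hΦ : Adm h Φ) :
    ∃ Ψ : ℍ → ℂ, IsPrim Ψ Φ ∧ Adm h Ψ := by
  set c := cuspFunction h Φ with hc
  have hbdd : IsBoundedAtImInfty Φ := hΦ.zero.isBoundedAtImInfty
  have hcd : DifferentiableOn ℂ c (Metric.ball 0 1) :=
    differentiableOn_cuspFunction_ball hh hΦ.per hΦ.hol hbdd
  have hc0 : c 0 = 0 := by
    rw [hc, cuspFunction_apply_zero hh (analyticAt_cuspFunction_zero hh hΦ.per hΦ.hol hbdd) hΦ.per]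
    exact hΦ.zero.valueAtInfty_eq_zero
  have hc1d : DifferentiableOn ℂ (dslope c 0) (Metric.ball 0 1) :=
    (Complex.differentiableOn_dslope (Metric.ball_mem_nhds _ one_pos)).mpr hcd
  obtain ⟨C, hC0, hC⟩ := hc1d.isExactOn_ball.with_val_at 0 0
  have hmul : ∀ q : ℂ, q * dslope c 0 q = c q := fun q => by
    have := sub_smul_dslope c 0 q
    simpa [hc0] using this
  refine ⟨fun τ => (h / (2 * π * I)) * C (𝕢 h τ), ?_, ?_, ?_, ?_⟩
  · intro z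
    have hq : 𝕢 h z ∈ Metric.ball (0 : ℂ) 1 := by
      simpa using Periodic.norm_qParam_lt_one hh z.im_pos
    have h1 : HasDerivAt (𝕢 h) (2 * π * I / h * 𝕢 h z) (z : ℂ) := by
      have : HasDerivAt (fun w : ℂ => 2 * π * I * w / h) (2 * π * I / h) (z : ℂ) := by
        simpa using ((hasDerivAt_id (z : ℂ)).const_mul (2 * π * I)).div_const (h : ℂ)
      have h3 := this.cexp
      rw [mul_comm (cexp _)] at h3
      exact h3
    have h2 := ((hC _ hq).comp (z : ℂ) h1).const_mul ((h : ℂ) / (2 * π * I))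
    have hval : (h : ℂ) / (2 * π * I) * (dslope c 0 (𝕢 h z) * (2 * π * I / h * 𝕢 h z)) = Φ z := by
      have hh' : (h : ℂ) ≠ 0 := by exact_mod_cast hh.ne'
      have hpi : (2 * π * I : ℂ) ≠ 0 := by simp [Real.pi_ne_zero]
      rw [← eq_cuspFunction z hh.ne' hΦ.per, ← hc, ← hmul]
      field_simp
    rw [hval] at h2
    refine h2.congr_of_eventuallyEq ?_
    filter_upwards [isOpen_upperHalfPlaneSet.mem_nhds z.im_pos] with w hw
    simp [ofComplex_apply_of_im_pos hw]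
  · exact periodic_comp_ofComplex_of_qParam hh.ne' (fun q => (h / (2 * π * I)) * C q)
  · intro z
    have hq : ∀ z : ℍ, 𝕢 h z ∈ Metric.ball (0 : ℂ) 1 := fun z => by
      simpa using Periodic.norm_qParam_lt_one hh z.im_pos
    rw [UpperHalfPlane.mdifferentiableAt_iff]
    have h1 : DifferentiableAt ℂ (fun w : ℂ => (h / (2 * π * I)) * C (𝕢 h w)) (z : ℂ) :=
      (((hC _ (hq z)).differentiableAt).comp (z : ℂ)
        (Periodic.differentiable_qParam (z : ℂ))).const_mul _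
    refine h1.congr_of_eventuallyEq ?_
    filter_upwards [isOpen_upperHalfPlaneSet.mem_nhds z.im_pos] with w hw
    simp [ofComplex_apply_of_im_pos hw]
  · have hcont : ContinuousAt C 0 := (hC 0 (by simp)).continuousAt
    have h1 : Tendsto (fun τ : ℍ => C (𝕢 h τ)) atImInfty (𝓝 0) := by
      have := hcont.tendsto.comp (qParam_tendsto_atImInfty hh)
      rwa [hC0] at this
    have h2 := h1.const_mul ((h : ℂ) / (2 * π * I))
    rw [mul_zero] at h2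
    exact h2


/-- The chosen primitive vanishing at `i∞` (junk value `0` if there is none). -/
def prim (Φ : ℍ → ℂ) : ℍ → ℂ :=
  open Classical in if H : ∃ Ψ : ℍ → ℂ, IsPrim Ψ Φ ∧ IsZeroAtImInfty Ψ then H.choose else 0

theorem prim_eq {Ψ Φ : ℍ → ℂ} (h₁ : IsPrim Ψ Φ) (h₂ : IsZeroAtImInfty Ψ) : prim Φ = Ψ := by
  have H : ∃ Ψ : ℍ → ℂ, IsPrim Ψ Φ ∧ IsZeroAtImInfty Ψ := ⟨Ψ, h₁, h₂⟩
  rw [prim, dif_pos H]
  exact H.choose_spec.1.unique_left h₁ H.choose_spec.2 h₂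

theorem Adm.isPrim_prim {h : ℝ} (hh : 0 < h) {Φ : ℍ → ℂ} (hΦ : Adm h Φ) : IsPrim (prim Φ) Φ := by
  obtain ⟨Ψ, h₁, h₂⟩ := exists_prim hh hΦ
  rw [prim_eq h₁ h₂.zero]
  exact h₁

theorem Adm.prim' {h : ℝ} (hh : 0 < h) {Φ : ℍ → ℂ} (hΦ : Adm h Φ) : Adm h (prim Φ) := by
  obtain ⟨Ψ, h₁, h₂⟩ := exists_prim hh hΦ
  rw [prim_eq h₁ h₂.zero]
  exact h₂

theorem Adm.iterate_prim {h : ℝ} (hh : 0 < h) {Φ : ℍ → ℂ} (hΦ : Adm h Φ) (n : ℕ) :
    Adm h (prim^[n] Φ) := by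
  induction n generalizing Φ with
  | zero => exact hΦ
  | succ n ih => exact ih (hΦ.prim' hh)

theorem Adm.add {h : ℝ} {Φ₁ Φ₂ : ℍ → ℂ} (h₁ : Adm h Φ₁) (h₂ : Adm h Φ₂) : Adm h (Φ₁ + Φ₂) where
  per := fun w => by
    have a := h₁.per w
    have b := h₂.per w
    simp only [comp_apply, Pi.add_apply] at a b ⊢
    rw [a, b]
  hol := h₁.hol.add h₂.hol
  zero := by
    have := Tendsto.add h₁.zero h₂.zero
    rw [add_zero] at this
    exact this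

theorem Adm.const_smul {h : ℝ} {Φ : ℍ → ℂ} (c : ℂ) (h₁ : Adm h Φ) : Adm h (c • Φ) where
  per := fun w => by
    have a := h₁.per w
    simp only [comp_apply, Pi.smul_apply] at a ⊢
    rw [a]
  hol := h₁.hol.const_smul c
  zero := by
    have := Tendsto.const_smul h₁.zero c
    rw [smul_zero] at this
    exact this

theorem prim_add {h : ℝ} (hh : 0 < h) {Φ₁ Φ₂ : ℍ → ℂ} (h₁ : Adm h Φ₁) (h₂ : Adm h Φ₂) :
    prim (Φ₁ + Φ₂) = prim Φ₁ + prim Φ₂ :=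
  prim_eq ((h₁.isPrim_prim hh).add (h₂.isPrim_prim hh)) ((h₁.prim' hh).add (h₂.prim' hh)).zero

theorem prim_smul {h : ℝ} (hh : 0 < h) {Φ : ℍ → ℂ} (c : ℂ) (h₁ : Adm h Φ) :
    prim (c • Φ) = c • prim Φ :=
  prim_eq ((h₁.isPrim_prim hh).const_smul c) ((h₁.prim' hh).const_smul c).zero

theorem iterate_prim_add {h : ℝ} (hh : 0 < h) {Φ₁ Φ₂ : ℍ → ℂ} (h₁ : Adm h Φ₁) (h₂ : Adm h Φ₂)
    (n : ℕ) : prim^[n] (Φ₁ + Φ₂) = prim^[n] Φ₁ + prim^[n] Φ₂ := by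
  induction n generalizing Φ₁ Φ₂ with
  | zero => rfl
  | succ n ih =>
    rw [iterate_succ_apply, iterate_succ_apply, iterate_succ_apply, prim_add hh h₁ h₂,
      ih (h₁.prim' hh) (h₂.prim' hh)]

theorem iterate_prim_smul {h : ℝ} (hh : 0 < h) {Φ : ℍ → ℂ} (c : ℂ) (h₁ : Adm h Φ)
    (n : ℕ) : prim^[n] (c • Φ) = c • prim^[n] Φ := by
  induction n generalizing Φ with
  | zero => rfl
  | succ n ih =>
    rw [iterate_succ_apply, iterate_succ_apply, prim_smul hh c h₁, ih (h₁.prim' hh)]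

/-- If an iterated primitive vanishes, so does the function. -/
theorem eq_zero_of_iterate_prim_eq_zero {h : ℝ} (hh : 0 < h) {Φ : ℍ → ℂ} (hΦ : Adm h Φ) (n : ℕ)
    (h0 : prim^[n] Φ = 0) : Φ = 0 := by
  induction n generalizing Φ with
  | zero => exact h0
  | succ n ih =>
    have h1 : prim Φ = 0 := ih (hΦ.prim' hh) h0
    have h2 := hΦ.isPrim_prim hh
    rw [h1] at h2
    exact h2.unique_right isPrim_zero

theorem IsPrim.mul {Ψ₁ Φ₁ Ψ₂ Φ₂ : ℍ → ℂ} (h₁ : IsPrim Ψ₁ Φ₁) (h₂ : IsPrim Ψ₂ Φ₂) :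
    IsPrim (Ψ₁ * Ψ₂) (Φ₁ * Ψ₂ + Ψ₁ * Φ₂) := fun z => by
  have := (h₁ z).mul (h₂ z)
  simp only [comp_apply, ofComplex_apply] at this
  exact this

theorem isPrim_of_hasDerivAt {Ψ Φ : ℍ → ℂ} (G : ℂ → ℂ) (hG : ∀ z : ℍ, HasDerivAt G (Φ z) z)
    (hΨ : ∀ z : ℍ, Ψ z = G z) : IsPrim Ψ Φ := fun z => by
  refine (hG z).congr_of_eventuallyEq ?_
  filter_upwards [isOpen_upperHalfPlaneSet.mem_nhds z.im_pos] with w hw
  simp [ofComplex_apply_of_im_pos hw, hΨ]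

theorem IsPrim.comp_smul {Ψ Φ : ℍ → ℂ} (h : IsPrim Ψ Φ) {g : GL (Fin 2) ℝ} (hg : 0 < g.val.det) :
    IsPrim (fun τ => Ψ (g • τ)) (fun τ => Φ (g • τ) * ((g.val.det : ℂ) / denom g τ ^ 2)) := by
  intro z
  have h1 : HasDerivAt (fun w ↦ ↑(g • ofComplex w) : ℂ → ℂ)
      ((g.val.det : ℂ) / denom g z ^ 2) ↑z := (hasStrictDerivAt_smul hg z).hasDerivAt
  have h2 : HasDerivAt (Ψ ∘ ofComplex) (Φ (g • z)) ↑(g • ofComplex (z : ℂ)) := by
    rw [ofComplex_apply]; exact h (g • z)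
  have h3 := h2.comp (z : ℂ) h1
  refine h3.congr_of_eventuallyEq (Eventually.of_forall fun w => ?_)
  simp [ofComplex_apply]

end

end Fermat.Agent.S22alt
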